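import Fermat.Agent.FF19.G0.Interface2
import Fermat.Agent.FF19.Law.GeoInterface
import Fermat.Agent.FF19.Kap.NSInterface
import Fermat.Agent.FF19.NSA.UB
import Fermat.Agent.FF19.A.GeoOut

/-!
# FF19 / GD : the glue  G0 + KAP + NS + NSA + S27  ⟹  `Law.GeoData`  ⟹  the abstract part of `A.GeoPack`
(owner helper52; deputies helper43 = special fibre, helper63 = generic fibre)

Setting = that of G0: `K` algebraically closed of characteristic `0`, `k` algebraically closed,
`D : INJ.RedData K F k κ`, `t : F` with `G0.Model D t`;  `sp : Place K F → Place k κ` ANY function with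
`IsSp D t sp` (it exists by `G0.Stmt_SpEx`, it is unique by `G0.Stmt_SpUniq`).

Every `Stmt_X` is proved in its own file `FF19/GD/<X>.lean` as `theorem stmt_X (deps) : Stmt_X`.
OUTPUT: `Stmt_Pack` (all the fields of helper36's `A.GeoPack` in which no Galois group occurs).
-/

set_option autoImplicit false

noncomputable section

namespace Fermat.Agent.FF19.GD

open AlgebraicCurve IntermediateField
open Fermat.Agent.INJ (RedData)
open Fermat.Agent.RED (Ev)

/-- `sp` is THE specialisation map. -/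
def IsSp {K F k κ : Type} [Field K] [Field F] [Algebra K F] [Field k] [Field κ] [Algebra k κ]
    (D : RedData K F k κ) (t : F) (sp : Place K F → Place k κ) : Prop :=
  ∀ P : Place K F, G0.Sp D t P (sp P)

/-- **GD-0**.  [`G0.Stmt_SpEx` + choice.] -/
def Stmt_SpFun : Prop :=
  ∀ (K F k κ : Type) [Field K] [IsAlgClosed K] [CharZero K] [Field F] [Algebra K F] [Field k]
    [IsAlgClosed k] [Field κ] [Algebra k κ] (D : RedData K F k κ) (t : F), G0.Model D t →
    ∃ sp : Place K F → Place k κ, IsSp D t sp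

/-- **GD-1** (me).  `A.SpData`.
[(1) `G0.Stmt_SpUniq`.  (2) `push sp E y = G0.spc D t y E` (both additive in `E`; on `single P n` use (1));
`G0.Stmt_Ord`.  (3) `G0.Stmt_SpSurj` + (1).] -/
def Stmt_SpData : Prop :=
  ∀ (K F k κ : Type) [Field K] [IsAlgClosed K] [CharZero K] [Field F] [Algebra K F] [Field k]
    [IsAlgClosed k] [Field κ] [Algebra k κ] (D : RedData K F k κ) (t : F), G0.Model D t →
    ∀ sp : Place K F → Place k κ, IsSp D t sp →
      (∀ (P : Place K F) (x : Place k κ), G0.Sp D t P x ↔ sp P = x) ∧ A.SpData D sp ∧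
        Function.Surjective sp

/-- **GD-2** (helper43).  `t̄` is a separating variable of full degree.
[`Chart.trans`, `Chart.sep`, `INJ.all_Trace` (see `NSA.Asm_finiteDimensional`), `INJ.stmt_Gauss`.] -/
def Stmt_Sep : Prop :=
  ∀ (K F k κ : Type) [Field K] [IsAlgClosed K] [CharZero K] [Field F] [Algebra K F] [Field k]
    [IsAlgClosed k] [Field κ] [Algebra k κ] (D : RedData K F k κ) (t : F), G0.Model D t →
    Kap.IsSepVar k (D.rd t) ∧ Module.finrank k⟮D.rd t⟯ κ = Module.finrank K⟮t⟯ F ∧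
      0 < Module.finrank K⟮t⟯ F ∧ Transcendental K t ∧ FiniteDimensional K⟮t⟯ F

/-- **GD-3** (helper43).  `t` is regular on the residue disc of a zero `y` of `t̄ - c̄`, with values reducing to `c̄`.
[`t̄ ∈ y`; `G0.Stmt_SpIff` with `T = t`: `SpC D t P y`; apply it to `z = t`; `|t̄ - c̄'|_y < 1` and `|t̄ - c̄|_y < 1` give
`c̄' = c̄` (a nonzero constant is a unit).] -/
def Stmt_Reg : Prop :=
  ∀ (K F k κ : Type) [Field K] [IsAlgClosed K] [CharZero K] [Field F] [Algebra K F] [Field k]
    [IsAlgClosed k] [Field κ] [Algebra k κ] (D : RedData K F k κ) (t : F), G0.Model D t →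
    ∀ sp : Place K F → Place k κ, IsSp D t sp →
    ∀ (y : Place k κ) (cbar : k), 0 < y.ord (D.rd t - algebraMap k κ cbar) →
    ∀ P : Place K F, sp P = y → ∃ c ∈ D.A, Ev P t c ∧ D.ra c = cbar

/-- **GD-4** (helper63).  The divisor of poles of `t` has degree `[F : K(t)]`. -/
def Stmt_Pole : Prop :=
  ∀ (K F : Type) [Field K] [IsAlgClosed K] [CharZero K] [Field F] [Algebra K F] (t : F),
    Transcendental K t → FiniteDimensional K⟮t⟯ F →
    ∃ Einf : Divisor K F, Law.PoleDiv t (Module.finrank K⟮t⟯ F) Einf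

/-- **GD-5** (helper63).  Orthonormal bases of all `L(E)`.
[`G0.Stmt_LBasis` + `FiniteDimensional K (riemannRochSpace E)` (S27).] -/
def Stmt_Lat : Prop :=
  ∀ (K F k κ : Type) [Field K] [IsAlgClosed K] [CharZero K] [Field F] [Algebra K F] [Field k]
    [IsAlgClosed k] [Field κ] [Algebra k κ] (D : RedData K F k κ) (t : F), G0.Model D t →
    ∀ E : Divisor K F, ∃ (N : ℕ) (b : Fin N → F), Law.IsLat D E b

/-- **GD-6** (me).  `INJ.Arch D ⟹ Law.Arch D.A`. -/
def Stmt_Arch : Prop :=
  ∀ (K F k κ : Type) [Field K] [Field F] [Algebra K F] [Field k] [Field κ] [Algebra k κ]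
    (D : RedData K F k κ), INJ.Arch D → Law.Arch D.A

/-- **GD-7** (me).  **`Law.GeoData` exists**, with base points at prescribed values of `t`.
[`s + 1 = [F : K(t)]` (GD-2); `m` large: `NSA.Stmt_UB`; `Kap.Stmt_NSOut` with `Z = ∅`: `cb, w`; again with
`Z = image cb`: `cb', w'`.  `reg` = GD-3; `P0 i` := the place of `Law.Stmt_Disc` for `y = w i 0`, `c = lift (cb i)`.
`Base.out`: `Q` a pole of `t` (`deg Einf = s + 1 > 0`), excluded from the discs by `reg`.] -/
def Stmt_GD : Prop :=
  ∀ (K F k κ : Type) [Field K] [IsAlgClosed K] [CharZero K] [Field F] [Algebra K F] [Field k]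
    [IsAlgClosed k] [Field κ] [Algebra k κ] (D : RedData K F k κ) (t : F), G0.Model D t →
    ∀ lift : k → K, (∀ c, lift c ∈ D.A ∧ D.ra (lift c) = c) →
    ∀ sp : Place K F → Place k κ, IsSp D t sp →
    ∃ (s : ℕ) (Einf : Divisor K F) (w w' : Fin (genusFF K F) → Fin (s + 1) → Place k κ)
      (cb cb' : Fin (genusFF K F) → k) (P0 Q0 : Fin (genusFF K F) → Place K F),
      Law.GeoData D sp (genusFF K F) s t Einf w w' cb cb' P0 Q0 ∧
      (∀ i, Ev (P0 i) t (lift (cb i))) ∧ (∀ i, Ev (Q0 i) t (lift (cb' i)))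

/-- all the fields of `A.GeoPack` in which no Galois group occurs, and the characterisation of the base points. -/
structure AbsPack {K F k κ : Type} [Field K] [Field F] [Algebra K F] [Field k] [Field κ] [Algebra k κ]
    (D : RedData K F k κ) (t : F) (lift : k → K) (sp : Place K F → Place k κ) (g : ℕ)
    (x : Bool → Fin g → Place k κ) (P0 : Bool → Fin g → Place K F) (cb : Bool → Fin g → k)
    (val : Place K F → K) : Prop where
  spData : A.SpData D sp
  curve : A.CurveFacts K F g
  base : ∀ c, A.Base sp (x c) (P0 c)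
  coord : ∀ c, A.Coord D sp (x c) t (cb c)
  val_ev : ∀ c i P, sp P = x c i → Ev P t (val P)
  law : A.LawHyp D sp x P0 val
  /-- `P0 c i` is THE place of the disc of `x c i` where `t = lift (cb c i)` -/
  P0_ev : ∀ c i, Ev (P0 c i) t (lift (cb c i))
  P0_uniq : ∀ c i P, sp P = x c i → Ev P t (lift (cb c i)) → P = P0 c i

/-- **GD-8** (me).  `GeoData ⟹ AbsPack`.
[`x true = w · 0`, `x false = w' · 0`.  `law`: `T`, `T'` from `Law.Stmt_CoEx`; `Law.GGeoCoord_half`, `GGeoCoord_swap`;
`Law.J1 sp = A.J1sub sp`.  `P0_uniq` : `A.all_TInj`.] -/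
def Stmt_PackOfGD : Prop :=
  ∀ (K F k κ : Type) [Field K] [Field F] [Algebra K F] [Field k] [Field κ] [Algebra k κ]
    (D : RedData K F k κ) (sp : Place K F → Place k κ) (g s : ℕ) (t : F) (Einf : Divisor K F)
    (w w' : Fin g → Fin (s + 1) → Place k κ) (cb cb' : Fin g → k) (P0 Q0 : Fin g → Place K F)
    (lift : k → K), Law.Arch D.A → Law.GeoData D sp g s t Einf w w' cb cb' P0 Q0 →
    (∀ i, Ev (P0 i) t (lift (cb i))) → (∀ i, Ev (Q0 i) t (lift (cb' i))) →
    AbsPack D t lift sp g (fun c i => if c then w i 0 else w' i 0) (fun c => if c then P0 else Q0)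
      (fun c => if c then cb else cb') (fun P => Law.val P t)

/-- **GD : THE OUTPUT.** -/
def Stmt_Pack : Prop :=
  ∀ (K F k κ : Type) [Field K] [IsAlgClosed K] [CharZero K] [Field F] [Algebra K F] [Field k]
    [IsAlgClosed k] [Field κ] [Algebra k κ] (D : RedData K F k κ) (t : F), G0.Model D t →
    ∀ lift : k → K, (∀ c, lift c ∈ D.A ∧ D.ra (lift c) = c) →
    ∀ sp : Place K F → Place k κ, IsSp D t sp →
    ∃ (x : Bool → Fin (genusFF K F) → Place k κ) (P0 : Bool → Fin (genusFF K F) → Place K F)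
      (cb : Bool → Fin (genusFF K F) → k),
      AbsPack D t lift sp (genusFF K F) x P0 cb (fun P => Law.val P t)

end Fermat.Agent.FF19.GD

end
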