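import Fermat.Agent.FF19.G0.Interface
import Fermat.Agent.FF19.Kap.Interface
import Fermat.Agent.INJ.All
import Fermat.Agent.RED.EvBasic

/-!
# FF19 / GD : slice [GD-NS] (helper43): the special fibre and the base points

`sp : Place K F → Place k κ` with `hsp : ∀ P, G0.Sp D t P (sp P)`.

* `NS_sep`  : `D.rd t` is a separating variable of `κ / k`, of degree `[F : K(t)]`;
* `NS_reg`  : `t` is regular on the residue disc of a zero `y` of `t̄ - c̄`, with values reducing to `c̄`;
* `NS_pt0`  : over a simple zero `y` of `t̄ - c̄` there is a place with `t = c`, for every lift `c` of `c̄`;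
* `NS_out`  : `sp` is not concentrated on finitely many points.
-/

set_option autoImplicit false

noncomputable section

namespace Fermat.Agent.FF19.GD

open AlgebraicCurve IntermediateField
open Fermat.Agent.INJ (RedData IsInt Chart Branch Arch)
open Fermat.Agent.RED (Ev)

variable {K F k κ : Type} [Field K] [Field F] [Algebra K F] [Field k] [Field κ] [Algebra k κ]

/-- (b) `D.rd t` is a separating variable of degree `[F : K(t)]`. -/
theorem NS_sep (D : RedData K F k κ) (t : F) (hC : Chart D t) :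
    Kap.IsSepVar k (D.rd t) ∧ Module.finrank k⟮D.rd t⟯ κ = Module.finrank K⟮t⟯ F := by
  have h1 := (INJ.all_Trace K F k κ D t hC).1
  have := hC.fin
  have hpos : 0 < Module.finrank K⟮t⟯ F := Module.finrank_pos
  refine ⟨⟨hC.trans, ?_, hC.sep⟩, h1⟩
  exact Module.finite_of_finrank_pos (by rw [h1]; exact hpos)

/-- a nonzero constant is a unit at every place. -/
theorem NS_const_val (y : Place k κ) {a : k} (ha : a ≠ 0) :
    y.toValuationSubring.valuation (algebraMap k κ a) = 1 := by
  have h1 : algebraMap k κ a ∈ y.toValuationSubring := y.algebraMap_mem' a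
  have h2 : algebraMap k κ a⁻¹ ∈ y.toValuationSubring := y.algebraMap_mem' a⁻¹
  have h1' := (y.toValuationSubring.valuation_le_one_iff _).2 h1
  have h2' := (y.toValuationSubring.valuation_le_one_iff _).2 h2
  have h3 : y.toValuationSubring.valuation (algebraMap k κ a) *
      y.toValuationSubring.valuation (algebraMap k κ a⁻¹) = 1 := by
    rw [← map_mul, ← map_mul, mul_inv_cancel₀ ha, map_one, map_one]
  refine le_antisymm h1' ?_
  by_contra hlt
  rw [not_le] at hlt
  have : y.toValuationSubring.valuation (algebraMap k κ a) *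
      y.toValuationSubring.valuation (algebraMap k κ a⁻¹) < 1 :=
    mul_lt_one_of_lt_of_le hlt h2'
  rw [h3] at this
  exact lt_irrefl _ this

/-- `t` is integral over `K[t]`. -/
theorem NS_isInt_self (t : F) : IsInt K t t := by
  have : t = algebraMap (Algebra.adjoin K {t}) F ⟨t, Algebra.subset_adjoin rfl⟩ := rfl
  rw [IsInt, this]
  exact isIntegral_algebraMap

/-- the core of (c), in terms of the valuation. -/
theorem NS_reg_val [IsAlgClosed K] [CharZero K] [IsAlgClosed k] (hI : G0.Stmt_SpIff)
    (D : RedData K F k κ) (t : F) (hM : G0.Model D t) (y : Place k κ) (cbar : k)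
    (hy : y.toValuationSubring.valuation (D.rd t - algebraMap k κ cbar) < 1)
    (P : Place K F) (hP : G0.Sp D t P y) : ∃ c ∈ D.A, Ev P t c ∧ D.ra c = cbar := by
  have hmem : D.rd t ∈ y.toValuationSubring := by
    have h1 : D.rd t - algebraMap k κ cbar ∈ y.toValuationSubring :=
      (y.toValuationSubring.valuation_le_one_iff _).1 hy.le
    have h2 := y.toValuationSubring.add_mem _ _ h1 (y.algebraMap_mem' cbar)
    rwa [sub_add_cancel] at h2
  have hC := ((hI K F k κ D t hM t (Or.inl rfl) y hmem P).1).1 hP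
  obtain ⟨c, hcA, hev, hval⟩ := hC.2 t hM.chart.t_mem (NS_isInt_self t)
  refine ⟨c, hcA, hev, ?_⟩
  by_contra hne
  have h3 : y.toValuationSubring.valuation (algebraMap k κ (D.ra c - cbar)) < 1 := by
    have e : algebraMap k κ (D.ra c - cbar) =
        (D.rd t - algebraMap k κ cbar) - (D.rd t - algebraMap k κ (D.ra c)) := by
      rw [map_sub]; ring
    rw [e]
    exact lt_of_le_of_lt (Valuation.map_sub _ _ _) (max_lt hy hval)
  rw [NS_const_val y (sub_ne_zero.2 hne)] at h3
  exact lt_irrefl _ h3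

/-- `0 < ord` means `valuation < 1`. -/
theorem NS_val_lt_of_ord (y : Place k κ) {f : κ} (h : 0 < y.ord f) :
    y.toValuationSubring.valuation f < 1 := by
  have hf : f ≠ 0 := by
    rintro rfl
    rw [Place.ord_zero] at h
    exact lt_irrefl _ h
  rw [← ValuationSubring.mem_nonunits_iff, ← Fermat.Agent.RED.ev_zero_iff,
    Fermat.Agent.RED.ev_zero_iff_ord hf]
  exact h

/-- (c) `t` is regular on the residue disc of a zero `y` of `t̄ - c̄`, with values reducing to `c̄`. -/
theorem NS_reg [IsAlgClosed K] [CharZero K] [IsAlgClosed k] (hI : G0.Stmt_SpIff)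
    (D : RedData K F k κ) (t : F) (hM : G0.Model D t) (sp : Place K F → Place k κ)
    (hsp : ∀ P, G0.Sp D t P (sp P)) (y : Place k κ) (cbar : k)
    (hy : 0 < y.ord (D.rd t - algebraMap k κ cbar)) (P : Place K F) (hP : sp P = y) :
    ∃ c ∈ D.A, Ev P t c ∧ D.ra c = cbar :=
  NS_reg_val hI D t hM y cbar (NS_val_lt_of_ord y hy) P (hP ▸ hsp P)

/-- `t` is regular on the residue disc of a zero of `t̄ - c̄`. -/
theorem NS_regAt [IsAlgClosed K] [CharZero K] [IsAlgClosed k] (hI : G0.Stmt_SpIff)
    (D : RedData K F k κ) (t : F) (hM : G0.Model D t) (y : Place k κ) (cbar : k)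
    (hy : 0 < y.ord (D.rd t - algebraMap k κ cbar)) : G0.RegAt D t y t := by
  refine ⟨hM.chart.t_mem, fun P hP => ?_⟩
  obtain ⟨c, -, hev, -⟩ := NS_reg_val hI D t hM y cbar (NS_val_lt_of_ord y hy) P hP
  exact Fermat.Agent.RED.ev_mem hev

/-- (d) over a simple zero `y` of `t̄ - c̄` there is exactly one place with `t = c`, for every lift `c` of
`c̄`; the zero of `t - c` there is simple. -/
theorem NS_pt0 [IsAlgClosed K] [CharZero K] [IsAlgClosed k] (hI : G0.Stmt_SpIff)
    (hS : G0.Stmt_Simple) (hU : G0.Stmt_SpUniq)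
    (D : RedData K F k κ) (t : F) (hM : G0.Model D t) (sp : Place K F → Place k κ)
    (hsp : ∀ P, G0.Sp D t P (sp P)) (y : Place k κ) (cbar : k)
    (hy : y.ord (D.rd t - algebraMap k κ cbar) = 1) (c : K) (hc : c ∈ D.A) (hcb : D.ra c = cbar) :
    ∃ P : Place K F, sp P = y ∧ Ev P t c ∧ P.ord (t - algebraMap K F c) = 1 ∧
      ∀ P' : Place K F, sp P' = y → Ev P' t c → P' = P := by
  have hreg := NS_regAt hI D t hM y cbar (by rw [hy]; exact one_pos)
  obtain ⟨P, hP, hev, hord, huniq⟩ := hS K F k κ D t hM y t hreg c hc (by rw [hcb]; exact hy)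
  exact ⟨P, hU K F k κ D t hM P _ _ (hsp P) hP, hev, hord,
    fun P' hP' hev' => huniq P' (hP' ▸ hsp P') hev'⟩

/-- (e) `sp` is not concentrated on finitely many points. -/
theorem NS_out [IsAlgClosed K] [CharZero K] [IsAlgClosed k] (hB : Kap.Stmt_Basic)
    (hSu : G0.Stmt_SpSurj) (hU : G0.Stmt_SpUniq)
    (D : RedData K F k κ) (t : F) (hM : G0.Model D t) (sp : Place K F → Place k κ)
    (hsp : ∀ P, G0.Sp D t P (sp P)) (n : ℕ) (x : Fin n → Place k κ) :
    ∃ Q : Place K F, ∀ i, sp Q ≠ x i := by
  classical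
  have hinf : Infinite (Place k κ) := (hB k κ (D.rd t) (NS_sep D t hM.chart).1).2.2.2
  obtain ⟨y, hy⟩ := Infinite.exists_notMem_finset (Finset.univ.image x)
  obtain ⟨Q, hQ⟩ := hSu K F k κ D t hM y
  refine ⟨Q, fun i hi => hy ?_⟩
  have : sp Q = y := hU K F k κ D t hM Q _ _ (hsp Q) hQ
  rw [← this, hi]
  exact Finset.mem_image_of_mem x (Finset.mem_univ i)

end Fermat.Agent.FF19.GD

end
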