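import Fermat.Agent.FF19.GD.Interface
import Fermat.Agent.FF19.GD.NS

/-!
# FF19 / GD : GD-2 (`Stmt_Sep`) and GD-3 (`Stmt_Reg`)  (helper43)
-/

set_option autoImplicit false

noncomputable section

namespace Fermat.Agent.FF19.GD

open AlgebraicCurve IntermediateField
open Fermat.Agent.INJ (RedData)
open Fermat.Agent.RED (Ev)

/-- **GD-2**. -/
theorem stmt_Sep : Stmt_Sep := by
  intro K F k κ _ _ _ _ _ _ _ _ _ D t hM
  have hC := hM.chart
  have := hC.fin
  exact ⟨(NS_sep D t hC).1, (NS_sep D t hC).2, Module.finrank_pos,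
    (INJ.stmt_Gauss K F k κ D t hC.t_mem hC.trans).2.2.2.1, hC.fin⟩

/-- **GD-3**. -/
theorem stmt_Reg (hI : G0.Stmt_SpIff) : Stmt_Reg := by
  intro K F k κ _ _ _ _ _ _ _ _ _ D t hM sp hsp y cbar hy P hP
  exact NS_reg hI D t hM sp hsp y cbar hy P hP

end Fermat.Agent.FF19.GD

end
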